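import Fermat.Agent.Density.Division
import Fermat.Agent.DeligneSerre.Bound.EulerBound
import Fermat.Agent.DeligneSerre.Bound.Parseval
import Mathlib.NumberTheory.NumberField.InfinitePlace.Embeddings
import Mathlib.RingTheory.IntegralDomain

/-!
# Analytic input for the finite image argument

Masses of sets of primes `∑ p ^ (-s)` compared with `log (1 / (s - 1))`, and what they imply,
through division density, for finite quotients of the Galois group.
-/

set_option autoImplicit false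

noncomputable section

open Filter Topology Subgroup
open scoped Classical Pointwise

namespace FLTA.DeligneSerre

local notation "Qb" => AlgebraicClosure ℚ
local notation "GQ" => AlgebraicClosure ℚ ≃ₐ[ℚ] AlgebraicClosure ℚ

/-- The primes satisfying `P` have upper logarithmic mass at most `η`. -/
def HasMassLE (P : ℕ → Prop) (η : ℝ) : Prop :=
  ∃ B : ℝ, ∀ᶠ s : ℝ in 𝓝[>] 1, ∀ F : Finset ℕ, (∀ p ∈ F, p.Prime ∧ P p) →
    ∑ p ∈ F, (p : ℝ) ^ (-s) ≤ η * (-Real.log (s - 1)) + B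

theorem tendsto_neg_log_sub_one : Tendsto (fun s : ℝ => - Real.log (s - 1)) (𝓝[>] 1) atTop := by
  refine tendsto_neg_atBot_atTop.comp (Real.tendsto_log_nhdsGT_zero.comp ?_)
  refine tendsto_nhdsWithin_iff.mpr
    ⟨((continuous_id.sub continuous_const).tendsto' 1 0 (by norm_num)).mono_left
      nhdsWithin_le_nhds, ?_⟩
  filter_upwards [self_mem_nhdsWithin] with s (hs : 1 < s)
  exact sub_pos.mpr hs

theorem le_of_eventually_mul_le {c η B : ℝ}
    (h : ∀ᶠ s : ℝ in 𝓝[>] 1, c * (-Real.log (s - 1)) ≤ η * (-Real.log (s - 1)) + B) : c ≤ η := by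
  by_contra hc
  push Not at hc
  obtain ⟨s, hs, hL⟩ :=
    (h.and (tendsto_neg_log_sub_one.eventually (eventually_gt_atTop (B / (c - η))))).exists
  rw [div_lt_iff₀ (sub_pos.mpr hc)] at hL
  linarith

theorem eventually_mem_Ioc : ∀ᶠ s : ℝ in 𝓝[>] 1, 1 < s ∧ s ≤ 2 := by
  filter_upwards [self_mem_nhdsWithin, nhdsWithin_le_nhds (Iic_mem_nhds one_lt_two)] with s h1 h2
  exact ⟨h1, h2⟩

/-- A finite sum over the primes outside `S'` as a sum over a finset of naturals. -/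
theorem sum_subtype_primes (S' : Finset ℕ) (F : Finset {p : ℕ // p.Prime ∧ p ∉ S'}) (g : ℕ → ℝ) :
    ∑ p ∈ F, g p = ∑ p ∈ F.map (Function.Embedding.subtype _), g p := by
  rw [Finset.sum_map]
  rfl

section Density

variable {G : Type} [Group G] [Fintype G] {φ : GQ →* G}

/-- A set of elements, closed under conjugation and change of generator, all of whose primes
have small mass, is small. -/
theorem card_le_of_hasMassLE (hφ : GaloisFactorsThroughFiniteLevel φ)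
    (hsurj : Function.Surjective φ) (C : Finset G) (hconj : ∀ g x : G, g ∈ C → x⁻¹ * g * x ∈ C)
    (hgen : ∀ g h : G, zpowers g = zpowers h → g ∈ C → h ∈ C) (S : Finset ℕ) (P : ℕ → Prop)
    (hP : ∀ p : ℕ, p.Prime → p ∉ S → ∀ A : ValuationSubring Qb, A.LiesOverPrime p →
      ∀ τ : GQ, A.IsFrobeniusAt τ p → φ τ ∈ C → P p)
    {η : ℝ} (hmass : HasMassLE P η) :
    (C.card : ℝ) ≤ η * Fintype.card G := by
  set f : G → ℝ := fun g => if g ∈ C then 1 else 0 with hf
  have hfc : ∀ g x, f (x⁻¹ * g * x) = f g := by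
    intro g x
    simp only [hf]
    refine if_congr ⟨fun h => ?_, hconj g x⟩ rfl rfl
    simpa [mul_assoc] using hconj _ x⁻¹ h
  have hfd : ∀ g h, zpowers g = zpowers h → f g = f h := fun g h hgh =>
    if_congr ⟨hgen g h hgh, hgen h g hgh.symm⟩ rfl rfl
  obtain ⟨S', hS', fp, hfp, B, hB⟩ :=
    Density.exists_bound_frobenius_sum φ hφ hsurj f hfc hfd S
  obtain ⟨B', hB'⟩ := hmass
  have hfp01 : ∀ p : {p : ℕ // p.Prime ∧ p ∉ S'}, fp p = 0 ∨ (fp p = 1 ∧ P p) := by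
    intro p
    obtain ⟨A, hA⟩ := Galois.exists_liesOverPrime (q := (p : ℕ)) p.2.1
    obtain ⟨τ, hτ⟩ := Galois.exists_isFrobeniusAt p.2.1 hA
    rw [← hfp p p.2.1 p.2.2 A hA τ hτ]
    by_cases h : φ τ ∈ C
    · exact Or.inr ⟨by simp [hf, h], hP p p.2.1 (fun hS => p.2.2 (hS' hS)) A hA τ hτ h⟩
    · exact Or.inl (by simp [hf, h])
  rw [← div_le_iff₀ (by exact_mod_cast Fintype.card_pos)]
  refine le_of_eventually_mul_le (B := B' + B) ?_
  filter_upwards [hB, hB'] with s hs hsB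
  have h2 : (∑' p : {p : ℕ // p.Prime ∧ p ∉ S'}, fp p * ((p : ℕ) : ℝ) ^ (-s)) ≤
      η * (-Real.log (s - 1)) + B' := by
    refine hs.1.tsum_le_of_sum_le fun F => ?_
    calc ∑ p ∈ F, fp p * ((p : ℕ) : ℝ) ^ (-s)
        = ∑ p ∈ F.filter (fun p => fp p.1 = 1), ((p : ℕ) : ℝ) ^ (-s) := by
          rw [Finset.sum_filter]
          refine Finset.sum_congr rfl fun p _ => ?_
          rcases hfp01 p with h | ⟨h, -⟩ <;> simp [h]
      _ ≤ _ := by
          rw [sum_subtype_primes S' _ fun p => (p : ℝ) ^ (-s)]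
          refine hsB _ fun p hp => ?_
          obtain ⟨q, hq, rfl⟩ := Finset.mem_map.mp hp
          refine ⟨q.2.1, ?_⟩
          rcases hfp01 q with h | ⟨-, h⟩
          · rw [(Finset.mem_filter.mp hq).2] at h; exact absurd h one_ne_zero
          · exact h
  have h3 := (abs_le.mp hs.2).1
  have h4 : (∑ g, f g) = (C.card : ℝ) := by simp [hf]
  rw [h4, one_div, Real.log_inv] at h3
  linarith

/-- If the primes in `P` have mass at most `η`, all elements of `G` but a proportion `η` generate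
the same cyclic group as the image of a Frobenius element at a prime outside `S` not in `P`. -/
theorem exists_frobenius_generator_avoiding (hφ : GaloisFactorsThroughFiniteLevel φ)
    (hsurj : Function.Surjective φ) (S : Finset ℕ) (P : ℕ → Prop) {η : ℝ}
    (hmass : HasMassLE P η) :
    ∃ E : Finset G, (1 - η) * Fintype.card G ≤ E.card ∧
      ∀ g ∈ E, ∃ p : ℕ, p.Prime ∧ p ∉ S ∧ ¬ P p ∧ ∃ A : ValuationSubring Qb, A.LiesOverPrime p ∧
        ∃ τ : GQ, A.IsFrobeniusAt τ p ∧ zpowers (φ τ) = zpowers g := by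
  set E : Finset G := Finset.univ.filter fun g => ∃ p : ℕ, p.Prime ∧ p ∉ S ∧ ¬ P p ∧
    ∃ A : ValuationSubring Qb, A.LiesOverPrime p ∧
      ∃ τ : GQ, A.IsFrobeniusAt τ p ∧ zpowers (φ τ) = zpowers g
  refine ⟨E, ?_, fun g hg => (Finset.mem_filter.mp hg).2⟩
  have hmem : ∀ g, g ∈ E ↔ ∃ p : ℕ, p.Prime ∧ p ∉ S ∧ ¬ P p ∧
      ∃ A : ValuationSubring Qb, A.LiesOverPrime p ∧
        ∃ τ : GQ, A.IsFrobeniusAt τ p ∧ zpowers (φ τ) = zpowers g := fun g => by simp [E]
  have hE : ∀ g x, g ∈ E → x * g * x⁻¹ ∈ E := by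
    intro g x hg
    obtain ⟨p, hp, hS, hP, A, hA, τ, hτ, hz⟩ := (hmem g).mp hg
    obtain ⟨σ, rfl⟩ := hsurj x
    refine (hmem _).mpr ⟨p, hp, hS, hP, σ • A, (Galois.liesOverPrime_smul_iff _).mpr hA,
      σ * τ * σ⁻¹, Galois.isFrobeniusAt_smul σ hτ, ?_⟩
    have h := congrArg (Subgroup.map (MulAut.conj (φ σ)).toMonoidHom) hz
    simpa [MonoidHom.map_zpowers] using h
  have h := card_le_of_hasMassLE hφ hsurj Eᶜ
    (fun g x hg => by
      rw [Finset.mem_compl] at hg ⊢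
      exact fun h => hg (by simpa [mul_assoc] using hE _ x h))
    (fun g h hgh hg => by
      rw [Finset.mem_compl, hmem] at hg ⊢
      rwa [← hgh])
    S P (fun p hp hS A hA τ hτ hmem' => by
      by_contra hP
      exact Finset.mem_compl.mp hmem' ((hmem _).mpr ⟨p, hp, hS, hP, A, hA, τ, hτ, rfl⟩))
    hmass
  rw [Finset.card_compl, Nat.cast_sub (Finset.card_le_univ _)] at h
  linarith

theorem sum_norm_sq_add_ge (χ₁ χ₂ : G →* ℂ) :
    2 * (Fintype.card G : ℝ) ≤ ∑ g, ‖χ₁ g + χ₂ g‖ ^ 2 := by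
  have h1 : ∀ (χ : G →* ℂ) (g : G), ‖χ g‖ = 1 := fun χ g =>
    Complex.norm_eq_one_of_pow_eq_one (n := orderOf g)
      (by rw [← map_pow, pow_orderOf_eq_one, map_one]) (orderOf_pos g).ne'
  have h2 : ∀ g, ‖χ₁ g + χ₂ g‖ ^ 2 = 2 + 2 * (χ₁ g * χ₂ g⁻¹).re := by
    intro g
    have hinv : χ₂ g⁻¹ = (starRingEnd ℂ) (χ₂ g) := by
      rw [← Complex.inv_eq_conj (h1 χ₂ g)]
      refine eq_inv_of_mul_eq_one_left ?_
      rw [← map_mul, inv_mul_cancel, map_one]
    rw [hinv, ← Complex.normSq_eq_norm_sq, Complex.normSq_add, Complex.normSq_eq_norm_sq,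
      Complex.normSq_eq_norm_sq, h1, h1]
    ring
  let ψ : G →* ℂ :=
    { toFun := fun g => χ₁ g * χ₂ g⁻¹
      map_one' := by simp
      map_mul' := fun a b => by simp only [mul_inv_rev, map_mul]; ring }
  simp only [h2]
  rw [Finset.sum_add_distrib, ← Finset.mul_sum, ← Complex.re_sum,
    show ∑ g, χ₁ g * χ₂ g⁻¹ = ∑ g, ψ g from rfl, sum_hom_units ψ]
  split_ifs <;> simp [mul_comm]

/-- A sum of two characters cannot, on average over the conjugates, have square mass at most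
`1`: reducible representations are excluded. -/
theorem false_of_two_characters (hφ : GaloisFactorsThroughFiniteLevel φ)
    (hsurj : Function.Surjective φ) (χ₁ χ₂ : G →* ℂ) (S : Finset ℕ) (a : ℕ → ℕ → ℂ)
    (ha : ∀ u : ℕ, u.Coprime (Fintype.card G) → ∀ p : ℕ, p.Prime → p ∉ S →
      ∀ A : ValuationSubring Qb, A.LiesOverPrime p → ∀ τ : GQ, A.IsFrobeniusAt τ p →
        a u p = χ₁ (φ τ ^ u) + χ₂ (φ τ ^ u))
    (hb : ∀ u : ℕ, u.Coprime (Fintype.card G) → ∃ B : ℝ, ∀ s : ℝ, 1 < s → s ≤ 2 →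
      ∀ F : Finset ℕ, (∀ p ∈ F, p.Prime ∧ p ∉ S) →
        ∑ p ∈ F, ‖a u p‖ ^ 2 * (p : ℝ) ^ (-s) ≤ -Real.log (s - 1) + B) : False := by
  set n := Fintype.card G with hn
  have : NeZero n := ⟨Fintype.card_ne_zero⟩
  set v : G → ℕ → ℝ := fun g u => ‖χ₁ (g ^ u) + χ₂ (g ^ u)‖ ^ 2 with hv
  set f : G → ℝ := fun g => ∑ u : (ZMod n)ˣ, v g (u : ZMod n).val with hf
  have hcop : ∀ u : (ZMod n)ˣ, ((u : ZMod n).val).Coprime n := fun u => ZMod.val_coe_unit_coprime u
  have hfc : ∀ g x, f (x⁻¹ * g * x) = f g := by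
    intro g x
    simp only [hf, hv]
    refine Finset.sum_congr rfl fun u _ => ?_
    have h : (x⁻¹ * g * x) ^ (u : ZMod n).val = x⁻¹ * g ^ (u : ZMod n).val * x := by
      simpa using conj_pow (a := x⁻¹) (b := g) (i := (u : ZMod n).val)
    have h' : ∀ χ : G →* ℂ, ∀ y : G, χ (x⁻¹ * y * x) = χ y := fun χ y => by
      rw [map_mul, map_mul, mul_right_comm, ← map_mul, inv_mul_cancel, map_one, one_mul]
    rw [h, h', h']
  have hfd : ∀ g h, zpowers g = zpowers h → f g = f h := by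
    intro g h hgh
    obtain ⟨k, hk⟩ := (isOfFinOrder_of_finite g).mem_powers_iff_mem_zpowers.mpr
      (hgh ▸ mem_zpowers h)
    simp only at hk
    have hkcop : k.Coprime (orderOf g) := by
      have h1 : Nat.card (zpowers g) = Nat.card (zpowers h) := by rw [hgh]
      rw [Nat.card_zpowers, Nat.card_zpowers, ← hk, orderOf_pow] at h1
      have h3 := Nat.div_mul_cancel (Nat.gcd_dvd_left (orderOf g) k)
      rw [← h1] at h3
      exact Nat.Coprime.symm ((mul_eq_left₀ (orderOf_pos g).ne').mp h3)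
    obtain ⟨w, hw⟩ := ZMod.unitsMap_surjective (orderOf_dvd_card (G := G) (x := g))
      (ZMod.unitOfCoprime k hkcop)
    have hwk : ((w : ZMod n).val : ZMod (orderOf g)) = (k : ZMod (orderOf g)) := by
      have h1 := congrArg Units.val hw
      simpa [ZMod.unitsMap, ZMod.natCast_val] using h1
    simp only [hf]
    refine (Fintype.sum_equiv (Equiv.mulLeft w) _ _ fun u => ?_).symm
    simp only [hv, Equiv.coe_mulLeft, Units.val_mul]
    rw [← hk]
    have hpow : (g ^ k) ^ (u : ZMod n).val = g ^ ((w : ZMod n) * (u : ZMod n)).val := by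
      rw [← pow_mul, pow_eq_pow_iff_modEq, ← ZMod.natCast_eq_natCast_iff, Nat.cast_mul,
        ZMod.val_mul,
        ← hwk, ← Nat.cast_mul, ZMod.natCast_eq_natCast_iff]
      exact (Nat.ModEq.of_dvd (orderOf_dvd_card (G := G) (x := g)) (Nat.mod_modEq _ _)).symm
    rw [hpow]
  obtain ⟨S', hS', fp, hfp, B, hB⟩ :=
    Density.exists_bound_frobenius_sum φ hφ hsurj f hfc hfd S
  choose Bu hBu using fun u : (ZMod n)ˣ => hb _ (hcop u)
  have hfpsum : ∀ p : {p : ℕ // p.Prime ∧ p ∉ S'},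
      fp p = ∑ u : (ZMod n)ˣ, ‖a (u : ZMod n).val p‖ ^ 2 := by
    intro p
    obtain ⟨A, hA⟩ := Galois.exists_liesOverPrime (q := (p : ℕ)) p.2.1
    obtain ⟨τ, hτ⟩ := Galois.exists_isFrobeniusAt p.2.1 hA
    rw [← hfp p p.2.1 p.2.2 A hA τ hτ]
    refine Finset.sum_congr rfl fun u _ => ?_
    rw [hv, ha _ (hcop u) p p.2.1 (fun h => p.2.2 (hS' h)) A hA τ hτ]
  have havg : 2 * (Fintype.card (ZMod n)ˣ : ℝ) ≤ (∑ g, f g) / (n : ℝ) := by
    rw [le_div_iff₀ (by exact_mod_cast Fintype.card_pos)]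
    simp only [hf]
    rw [Finset.sum_comm]
    have hu : ∀ u : (ZMod n)ˣ, 2 * (n : ℝ) ≤ ∑ g, v g (u : ZMod n).val := by
      intro u
      refine (sum_norm_sq_add_ge χ₁ χ₂).trans_eq ?_
      refine (Fintype.sum_equiv (powCoprime (n := (u : ZMod n).val) ?_) _ _ fun g => rfl).symm
      rw [Nat.card_eq_fintype_card]
      exact (hcop u).symm
    have := Finset.sum_le_sum fun u (_ : u ∈ Finset.univ) => hu u
    rw [Finset.sum_const, nsmul_eq_mul, Finset.card_univ] at this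
    linarith
  have hcard : (1 : ℝ) ≤ Fintype.card (ZMod n)ˣ := by exact_mod_cast Fintype.card_pos
  have hle : (∑ g, f g) / (n : ℝ) ≤ Fintype.card (ZMod n)ˣ := by
    refine le_of_eventually_mul_le (B := (∑ u, Bu u) + B) ?_
    filter_upwards [hB, eventually_mem_Ioc] with s hs hs12
    have h2 : (∑' p : {p : ℕ // p.Prime ∧ p ∉ S'}, fp p * ((p : ℕ) : ℝ) ^ (-s)) ≤
        (Fintype.card (ZMod n)ˣ : ℝ) * (-Real.log (s - 1)) + ∑ u, Bu u := by
      refine hs.1.tsum_le_of_sum_le fun F => ?_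
      simp only [hfpsum, Finset.sum_mul]
      rw [Finset.sum_comm]
      calc _ ≤ ∑ u : (ZMod n)ˣ, (-Real.log (s - 1) + Bu u) := Finset.sum_le_sum fun u _ => by
            rw [sum_subtype_primes S' F fun p => ‖a (u : ZMod n).val p‖ ^ 2 * (p : ℝ) ^ (-s)]
            refine hBu u s hs12.1 hs12.2 _ fun p hp => ?_
            obtain ⟨q, -, rfl⟩ := Finset.mem_map.mp hp
            exact ⟨q.2.1, fun h => q.2.2 (hS' h)⟩
        _ = _ := by
            rw [Finset.sum_add_distrib, Finset.sum_const, Finset.card_univ, nsmul_eq_mul]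
    have h3 := (abs_le.mp hs.2).1
    rw [one_div, Real.log_inv] at h3
    linarith
  linarith

/-- Primes all of whose Frobenius elements land in a set `C` closed under conjugation and change
of generator have mass at most `|C| / |G|`. -/
theorem hasMassLE_of_mem (hφ : GaloisFactorsThroughFiniteLevel φ)
    (hsurj : Function.Surjective φ) (C : Finset G) (hconj : ∀ g x : G, g ∈ C → x⁻¹ * g * x ∈ C)
    (hgen : ∀ g h : G, zpowers g = zpowers h → g ∈ C → h ∈ C) (S : Finset ℕ) (P : ℕ → Prop)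
    (hP : ∀ p : ℕ, p.Prime → p ∉ S → P p → ∀ A : ValuationSubring Qb, A.LiesOverPrime p →
      ∀ τ : GQ, A.IsFrobeniusAt τ p → φ τ ∈ C) :
    HasMassLE P ((C.card : ℝ) / Fintype.card G) := by
  set f : G → ℝ := fun g => if g ∈ C then 1 else 0 with hf
  have hfc : ∀ g x, f (x⁻¹ * g * x) = f g := by
    intro g x
    simp only [hf]
    refine if_congr ⟨fun h => ?_, hconj g x⟩ rfl rfl
    simpa [mul_assoc] using hconj _ x⁻¹ h
  have hfd : ∀ g h, zpowers g = zpowers h → f g = f h := fun g h hgh =>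
    if_congr ⟨hgen g h hgh, hgen h g hgh.symm⟩ rfl rfl
  obtain ⟨S', hS', fp, hfp, B, hB⟩ :=
    Density.exists_bound_frobenius_sum φ hφ hsurj f hfc hfd S
  refine ⟨B + S'.card, ?_⟩
  filter_upwards [hB, eventually_mem_Ioc] with s hs hs12 F hF
  have hfpos : ∀ p : {p : ℕ // p.Prime ∧ p ∉ S'}, 0 ≤ fp p ∧ (P p → fp p = 1) := by
    intro p
    obtain ⟨A, hA⟩ := Galois.exists_liesOverPrime (q := (p : ℕ)) p.2.1
    obtain ⟨τ, hτ⟩ := Galois.exists_isFrobeniusAt p.2.1 hA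
    rw [← hfp p p.2.1 p.2.2 A hA τ hτ]
    refine ⟨by simp only [hf]; split_ifs <;> norm_num, fun h => ?_⟩
    simp [hf, hP p p.2.1 (fun hS => p.2.2 (hS' hS)) h A hA τ hτ]
  rw [← Finset.sum_filter_add_sum_filter_not F (fun p => p ∈ S')]
  have h1 : ∑ p ∈ F.filter (fun p => p ∈ S'), (p : ℝ) ^ (-s) ≤ S'.card := by
    refine (Finset.sum_le_card_nsmul _ _ 1 fun p hp => ?_).trans ?_
    · exact Real.rpow_le_one_of_one_le_of_nonpos
        (Nat.one_le_cast.mpr (hF p (Finset.mem_filter.mp hp).1).1.one_lt.le) (by linarith [hs12.1])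
    · rw [nsmul_one]
      exact Nat.cast_le.mpr (Finset.card_le_card fun p hp => (Finset.mem_filter.mp hp).2)
  have h2 : ∑ p ∈ F.filter (fun p => ¬ p ∈ S'), (p : ℝ) ^ (-s) ≤
      ∑' p : {p : ℕ // p.Prime ∧ p ∉ S'}, fp p * ((p : ℕ) : ℝ) ^ (-s) := by
    rw [← Finset.sum_subtype_of_mem (p := fun p => p.Prime ∧ p ∉ S') (fun p : ℕ => (p : ℝ) ^ (-s))
      fun p hp => ⟨(hF p (Finset.mem_filter.mp hp).1).1, (Finset.mem_filter.mp hp).2⟩]
    refine le_trans (Finset.sum_le_sum fun p hp => ?_)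
      (hs.1.sum_le_tsum _ fun p _ => mul_nonneg (hfpos p).1 (by positivity))
    have hpF : (p : ℕ) ∈ F := (Finset.mem_filter.mp (Finset.mem_subtype.mp hp)).1
    rw [(hfpos p).2 (hF p hpF).2, one_mul]
  have h3 := (abs_le.mp hs.2).2
  have h4 : (∑ g, f g) = (C.card : ℝ) := by simp [hf]
  rw [h4, one_div, Real.log_inv] at h3
  linarith

end Density

theorem HasMassLE.mono {P Q : ℕ → Prop} {η : ℝ} (h : HasMassLE P η)
    (hQ : ∀ p : ℕ, p.Prime → Q p → P p) : HasMassLE Q η := by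
  obtain ⟨B, hB⟩ := h
  refine ⟨B, ?_⟩
  filter_upwards [hB] with s hs F hF
  exact hs F fun p hp => ⟨(hF p hp).1, hQ p (hF p hp).1 (hF p hp).2⟩

theorem HasMassLE.mono_const {P : ℕ → Prop} {η η' : ℝ} (h : HasMassLE P η) (hη : η ≤ η') :
    HasMassLE P η' := by
  obtain ⟨B, hB⟩ := h
  refine ⟨B, ?_⟩
  filter_upwards [hB, eventually_mem_Ioc] with s hs hs12 F hF
  have hlog : 0 ≤ -Real.log (s - 1) := by
    linarith [Real.log_nonpos (by linarith : 0 ≤ s - 1) (by linarith)]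
  linarith [hs F hF, mul_le_mul_of_nonneg_right hη hlog]

theorem HasMassLE.or {P Q : ℕ → Prop} {η η' : ℝ} (h : HasMassLE P η) (h' : HasMassLE Q η') :
    HasMassLE (fun p => P p ∨ Q p) (η + η') := by
  obtain ⟨B, hB⟩ := h
  obtain ⟨B', hB'⟩ := h'
  refine ⟨B + B', ?_⟩
  filter_upwards [hB, hB'] with s hs hs' F hF
  rw [← Finset.sum_filter_add_sum_filter_not F P]
  have h1 := hs (F.filter P) fun p hp =>
    ⟨(hF p (Finset.mem_filter.mp hp).1).1, (Finset.mem_filter.mp hp).2⟩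
  have h2 := hs' (F.filter fun p => ¬ P p) fun p hp =>
    ⟨(hF p (Finset.mem_filter.mp hp).1).1,
      (hF p (Finset.mem_filter.mp hp).1).2.resolve_left (Finset.mem_filter.mp hp).2⟩
  linarith

theorem hasMassLE_biUnion {ι : Type*} (I : Finset ι) (P : ι → ℕ → Prop) (η : ℝ)
    (h : ∀ i ∈ I, HasMassLE (P i) η) :
    HasMassLE (fun p => ∃ i ∈ I, P i p) (I.card * η) := by
  induction I using Finset.induction with
  | empty =>
    refine ⟨0, Eventually.of_forall fun s F hF => ?_⟩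
    have : F = ∅ := Finset.eq_empty_of_forall_notMem fun p hp => by simpa using (hF p hp).2
    simp [this]
  | insert a J ha ih =>
    have h1 := (h a (Finset.mem_insert_self a J)).or
      (ih fun i hi => h i (Finset.mem_insert_of_mem hi))
    rw [Finset.card_insert_of_notMem ha, Nat.cast_add, Nat.cast_one, add_mul, one_mul, add_comm]
    exact h1.mono fun p _ hp => by
      obtain ⟨i, hi, hp⟩ := hp
      rcases Finset.mem_insert.mp hi with rfl | hi
      · exact Or.inl hp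
      · exact Or.inr ⟨i, hi, hp⟩

/-- If every conjugate of the `x p` has bounded square mass, then outside a finite set of values
the primes have arbitrarily small mass. -/
theorem exists_finite_hasMassLE (K : Type*) [Field K] [NumberField K] (x : ℕ → K) (S : Finset ℕ)
    (hint : ∀ p : ℕ, p.Prime → p ∉ S → IsIntegral ℤ (x p))
    (hb : ∀ σ : K →+* ℂ, ∃ A B : ℝ, 0 ≤ A ∧ ∀ s : ℝ, 1 < s → s ≤ 2 → ∀ F : Finset ℕ,
      (∀ p ∈ F, p.Prime ∧ p ∉ S) →
        ∑ p ∈ F, ‖σ (x p)‖ ^ 2 * (p : ℝ) ^ (-s) ≤ A * (-Real.log (s - 1)) + B)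
    {η : ℝ} (hη : 0 < η) :
    ∃ Y : Finset K, HasMassLE (fun p => p ∉ S ∧ x p ∉ Y) η := by
  choose A B hA hAB using hb
  set c : ℝ := Real.sqrt ((∑ σ, A σ + 1) / η) with hc
  have hsumA : 0 < ∑ σ, A σ + 1 := by
    linarith [Finset.sum_nonneg fun σ (_ : σ ∈ Finset.univ) => hA σ]
  have hc0 : 0 < c := Real.sqrt_pos.mpr (div_pos hsumA hη)
  have hc2 : c ^ 2 = (∑ σ, A σ + 1) / η := Real.sq_sqrt (div_pos hsumA hη).le
  refine ⟨(NumberField.Embeddings.finite_of_norm_le K ℂ c).toFinset,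
    (∑ σ, B σ) / c ^ 2, ?_⟩
  filter_upwards [eventually_mem_Ioc] with s ⟨h1, h2⟩ F hF
  have hlog : 0 ≤ -Real.log (s - 1) := by
    linarith [Real.log_nonpos (by linarith : 0 ≤ s - 1) (by linarith)]
  have hterm : ∀ p ∈ F, c ^ 2 * (p : ℝ) ^ (-s) ≤
      ∑ σ : K →+* ℂ, ‖σ (x p)‖ ^ 2 * (p : ℝ) ^ (-s) := by
    intro p hp
    obtain ⟨hpp, hpS, hpY⟩ := hF p hp
    rw [Set.Finite.mem_toFinset, Set.mem_ofPred_eq, not_and, not_forall] at hpY
    obtain ⟨σ, hσ⟩ := hpY (hint p hpp hpS)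
    push Not at hσ
    refine le_trans ?_ (Finset.single_le_sum (fun τ _ => by positivity) (Finset.mem_univ σ))
    gcongr
  have h3 : c ^ 2 * ∑ p ∈ F, (p : ℝ) ^ (-s) ≤
      (∑ σ, A σ) * (-Real.log (s - 1)) + ∑ σ, B σ := by
    rw [Finset.mul_sum]
    refine (Finset.sum_le_sum hterm).trans ?_
    rw [Finset.sum_comm, Finset.sum_mul, ← Finset.sum_add_distrib]
    exact Finset.sum_le_sum fun σ _ =>
      hAB σ s h1 h2 F fun p hp => ⟨(hF p hp).1, (hF p hp).2.1⟩
  have h4 : c ^ 2 * ∑ p ∈ F, (p : ℝ) ^ (-s) ≤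
      c ^ 2 * (η * (-Real.log (s - 1)) + (∑ σ, B σ) / c ^ 2) := by
    rw [mul_add, mul_div_cancel₀ _ (by positivity), ← mul_assoc, hc2, div_mul_cancel₀ _ hη.ne']
    rw [hc2] at h3
    linarith
  exact le_of_mul_le_mul_left h4 (by positivity)

section CuspForm

open CongruenceSubgroup

variable {N : ℕ} [NeZero N] {ε : DirichletCharacter ℂ N} (f : CuspForm (Gamma1 N) 1)

omit [NeZero N] in
theorem coeff_mul_of_not_dvd
    (hT : ∀ p : ℕ, p.Prime → ¬ p ∣ N → ∀ n : ℕ,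
      ModularFormClass.qCoeff f (p * n) +
          ε (p : ZMod N) * (if p ∣ n then ModularFormClass.qCoeff f (n / p) else 0) =
        ModularFormClass.qCoeff f p * ModularFormClass.qCoeff f n)
    (p : ℕ) (hp : p.Prime) (hpN : ¬ p ∣ N) (n : ℕ) (hn : ¬ p ∣ n) :
    ModularFormClass.qCoeff f (p * n) =
      ModularFormClass.qCoeff f p * ModularFormClass.qCoeff f n := by
  simpa [hn] using hT p hp hpN n

theorem exists_sum_Icc_sq_le : ∃ C : ℝ, 0 < C ∧
    ∀ X : ℕ, ∑ n ∈ Finset.Icc 1 X, ‖ModularFormClass.qCoeff f n‖ ^ 2 ≤ C * X := by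
  obtain ⟨C, hC, h⟩ := exists_sum_norm_sq_coeff_exp_le f (by simp)
  refine ⟨Real.exp (4 * Real.pi) * C + 1, by positivity, fun X => ?_⟩
  refine (sum_Icc_le_of_exp _ (fun n => by positivity) C h X).trans ?_
  exact mul_le_mul_of_nonneg_right (by linarith) (Nat.cast_nonneg X)

variable (hf₁ : ModularFormClass.qCoeff f 1 = 1)
  (hT : ∀ p : ℕ, p.Prime → ¬ p ∣ N → ∀ n : ℕ,
    ModularFormClass.qCoeff f (p * n) +
        ε (p : ZMod N) * (if p ∣ n then ModularFormClass.qCoeff f (n / p) else 0) =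
      ModularFormClass.qCoeff f p * ModularFormClass.qCoeff f n)

include hf₁ hT in
/-- `∑ |a p|² p ^ (-s) ≤ A log (1 / (s - 1)) + B` for a weight one Hecke eigenform. -/
theorem exists_cuspForm_sq_mass :
    ∃ A B : ℝ, 0 ≤ A ∧ ∀ s : ℝ, 1 < s → s ≤ 2 → ∀ P : Finset ℕ,
      (∀ p ∈ P, p.Prime ∧ ¬ p ∣ N) →
        ∑ p ∈ P, ‖ModularFormClass.qCoeff f p‖ ^ 2 * (p : ℝ) ^ (-s) ≤
          A * (-Real.log (s - 1)) + B :=
  have ⟨C, hC, hS⟩ := exists_sum_Icc_sq_le f
  exists_sum_sq_prime_le _ N hf₁ (coeff_mul_of_not_dvd f hT) C hC hS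

include hf₁ hT in
/-- The sharp form when the `a p` are bounded. -/
theorem exists_cuspForm_sq_mass_of_bounded (M : ℝ)
    (hM : ∀ p : ℕ, p.Prime → ¬ p ∣ N → ‖ModularFormClass.qCoeff f p‖ ≤ M) :
    ∃ B : ℝ, ∀ s : ℝ, 1 < s → s ≤ 2 → ∀ P : Finset ℕ, (∀ p ∈ P, p.Prime ∧ ¬ p ∣ N) →
        ∑ p ∈ P, ‖ModularFormClass.qCoeff f p‖ ^ 2 * (p : ℝ) ^ (-s) ≤ -Real.log (s - 1) + B :=
  have ⟨C, hC, hS⟩ := exists_sum_Icc_sq_le f
  exists_sum_sq_prime_le_of_bounded _ N hf₁ (coeff_mul_of_not_dvd f hT) C hC hS M hM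

end CuspForm

end FLTA.DeligneSerre
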